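import Mathlib
import Fermat.Prelude.Def_AlgebraicCurve_DivisorClassGroup

/-!
# Dictionary: places of `F/K` containing a Dedekind domain `B` ↔ height-one primes of `B`

`K F` fields, `B` a Dedekind domain with fraction field `F`, `K → B → F` a tower.
-/

set_option autoImplicit false
set_option linter.unusedSectionVars false

open IsDedekindDomain IsDedekindDomain.HeightOneSpectrum WithZero AlgebraicCurve

namespace Fermat.Agent.S24_helper6

variable {K F : Type*} [Field K] [Field F] [Algebra K F]
  {B : Type*} [CommRing B] [IsDedekindDomain B] [Algebra K B] [Algebra B F]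
  [IsScalarTower K B F] [IsFractionRing B F]

/-- The valuation subring of the `P`-adic valuation is not everything. -/
theorem valuationSubring_ne_top (P : HeightOneSpectrum B) :
    (P.valuation F).valuationSubring ≠ ⊤ := by
  simp only [ne_eq, Valuation.valuationSubring_eq_top_iff, not_not]
  infer_instance

/-- The valuation subring of the `P`-adic valuation is a PID. -/
theorem valuationSubring_isPrincipalIdealRing (P : HeightOneSpectrum B) :
    IsPrincipalIdealRing (P.valuation F).valuationSubring := by
  rw [← valuationSubringAtPrime_eq_valuationSubring]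
  have : IsDiscreteValuationRing (valuationSubringAtPrime F P) :=
    IsLocalization.AtPrime.isDiscreteValuationRing_of_dedekind_domain B P.ne_bot
      (valuationSubringAtPrime F P)
  infer_instance

/-- The place of `F/K` attached to a height-one prime of `B`. -/
noncomputable def placeOfPrime (P : HeightOneSpectrum B) : Place K F where
  toValuationSubring := (P.valuation F).valuationSubring
  algebraMap_mem' a := by
    rw [IsScalarTower.algebraMap_apply K B F]
    exact P.valuation_le_one _
  ne_top' := valuationSubring_ne_top P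
  isPrincipalIdealRing' := valuationSubring_isPrincipalIdealRing P

@[simp]
theorem placeOfPrime_toValuationSubring (P : HeightOneSpectrum B) :
    (placeOfPrime (K := K) (F := F) P).toValuationSubring = (P.valuation F).valuationSubring := rfl

theorem mem_placeOfPrime_iff (P : HeightOneSpectrum B) (f : F) :
    f ∈ (placeOfPrime (K := K) (F := F) P).toValuationSubring ↔ P.valuation F f ≤ 1 := Iff.rfl

theorem algebraMap_mem_placeOfPrime (P : HeightOneSpectrum B) (b : B) :
    algebraMap B F b ∈ (placeOfPrime (K := K) (F := F) P).toValuationSubring :=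
  P.valuation_le_one b

/-- Units of the valuation subring are the elements of valuation `1`. -/
theorem isUnit_iff_valuation_eq_one (P : HeightOneSpectrum B)
    (x : (P.valuation F).valuationSubring) : IsUnit x ↔ P.valuation F (x : F) = 1 :=
  (Valuation.valuationSubring.integers (P.valuation F)).isUnit_iff_valuation_eq_one

/-- An irreducible element of the valuation subring has valuation `exp (-1)`. -/
theorem valuation_irreducible (P : HeightOneSpectrum B)
    {ϖ : (P.valuation F).valuationSubring} (hϖ : Irreducible ϖ) :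
    P.valuation F (ϖ : F) = exp (-1 : ℤ) := by
  have := valuationSubring_isPrincipalIdealRing (F := F) P
  have hle : P.valuation F (ϖ : F) ≤ 1 := ϖ.2
  have hne1 : P.valuation F (ϖ : F) ≠ 1 := fun h =>
    hϖ.not_isUnit ((isUnit_iff_valuation_eq_one P ϖ).2 h)
  have hlt : P.valuation F (ϖ : F) < 1 := lt_of_le_of_ne hle hne1
  have hne0 : P.valuation F (ϖ : F) ≠ 0 := by
    rw [Valuation.ne_zero_iff]
    intro h
    exact hϖ.ne_zero (Subtype.ext h)
  -- upper bound
  have hub : P.valuation F (ϖ : F) ≤ exp (-1 : ℤ) := by
    apply le_exp_of_log_le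
    have : log (P.valuation F (ϖ : F)) < 0 := by
      rw [log_lt_iff_lt_exp hne0, exp_zero]
      exact hlt
    omega
  -- lower bound via a uniformizer of `P`
  obtain ⟨π₀, hπ₀⟩ := P.valuation_exists_uniformizer F
  have hπ₀le : P.valuation F π₀ ≤ 1 := by
    rw [hπ₀, ← exp_zero, exp_le_exp]; omega
  let π : (P.valuation F).valuationSubring := ⟨π₀, hπ₀le⟩
  have hπnu : ¬ IsUnit π := by
    rw [isUnit_iff_valuation_eq_one]
    change P.valuation F π₀ ≠ 1
    rw [hπ₀, ← exp_zero, ne_eq, exp_inj]
    omega
  have hπmem : π ∈ IsLocalRing.maximalIdeal (P.valuation F).valuationSubring :=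
    (IsLocalRing.mem_maximalIdeal _).2 hπnu
  have hspan : IsLocalRing.maximalIdeal (P.valuation F).valuationSubring = Ideal.span {ϖ} :=
    (IsDiscreteValuationRing.irreducible_iff_uniformizer ϖ).1 hϖ
  rw [hspan, Ideal.mem_span_singleton] at hπmem
  obtain ⟨c, hc⟩ := hπmem
  have hc' : π₀ = (ϖ : F) * (c : F) := congrArg Subtype.val hc
  have hlb : exp (-1 : ℤ) ≤ P.valuation F (ϖ : F) := by
    rw [← hπ₀, hc', map_mul]
    exact mul_le_of_le_one_right' c.2
  exact le_antisymm hub hlb

/-- `Place.ord` of the place attached to `P` is the `P`-adic order. -/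
theorem placeOfPrime_ord (P : HeightOneSpectrum B) (f : F) :
    (placeOfPrime (K := K) (F := F) P).ord f = -(log (P.valuation F f)) := by
  rcases eq_or_ne f 0 with rfl | hf
  · simp
  obtain ⟨ϖ, hϖ⟩ :=
    IsDiscreteValuationRing.exists_irreducible (placeOfPrime (K := K) (F := F) P).toValuationSubring
  have hϖval : P.valuation F (ϖ : F) = exp (-1 : ℤ) := valuation_irreducible P hϖ
  obtain ⟨u, hu⟩ := (placeOfPrime (K := K) (F := F) P).exists_unit_mul_zpow hf hϖ
  have huval : P.valuation F ((u : (placeOfPrime (K := K) (F := F) P).toValuationSubring) : F) = 1 :=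
    (isUnit_iff_valuation_eq_one P _).1 u.isUnit
  conv_rhs => rw [hu]
  rw [map_mul, huval, one_mul, map_zpow₀, hϖval, ← exp_zsmul, log_exp]
  simp

theorem placeOfPrime_ord_eq_iff (P : HeightOneSpectrum B) {f : F} (hf : f ≠ 0) (n : ℤ) :
    (placeOfPrime (K := K) (F := F) P).ord f = n ↔ P.valuation F f = exp (-n) := by
  rw [placeOfPrime_ord]
  constructor
  · intro h
    rw [← h, neg_neg, exp_log ((Valuation.ne_zero_iff _).2 hf)]
  · intro h
    rw [h, log_exp, neg_neg]

/-- For `b : B`: `ord b ≥ 0`. -/
theorem placeOfPrime_ord_algebraMap_nonneg (P : HeightOneSpectrum B) (b : B) :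
    0 ≤ (placeOfPrime (K := K) (F := F) P).ord (algebraMap B F b) := by
  rw [placeOfPrime_ord]
  rcases eq_or_ne b 0 with rfl | hb
  · simp
  have hne : P.valuation F (algebraMap B F b) ≠ 0 :=
    (Valuation.ne_zero_iff _).2 ((map_ne_zero_iff _ (IsFractionRing.injective B F)).2 hb)
  have : log (P.valuation F (algebraMap B F b)) ≤ 0 := by
    rw [log_le_iff_le_exp hne, exp_zero]
    exact P.valuation_le_one b
  omega

/-- For `b : B`, `b ≠ 0`: `0 < ord b ↔ b ∈ P`. -/
theorem placeOfPrime_ord_algebraMap_pos_iff (P : HeightOneSpectrum B) {b : B} (hb : b ≠ 0) :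
    0 < (placeOfPrime (K := K) (F := F) P).ord (algebraMap B F b) ↔ b ∈ P.asIdeal := by
  rw [placeOfPrime_ord, ← P.valuation_lt_one_iff_mem (K := F)]
  have hne : P.valuation F (algebraMap B F b) ≠ 0 :=
    (Valuation.ne_zero_iff _).2 ((map_ne_zero_iff _ (IsFractionRing.injective B F)).2 hb)
  rw [neg_pos, log_lt_iff_lt_exp hne, exp_zero]

/-! ### From places to primes -/

/-- `B ⊆ O_v`. -/
def ContainsB (B : Type*) [CommRing B] [Algebra B F] (v : Place K F) : Prop :=
  ∀ b : B, algebraMap B F b ∈ v.toValuationSubring

theorem containsB_placeOfPrime (P : HeightOneSpectrum B) :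
    ContainsB B (placeOfPrime (K := K) (F := F) P) :=
  fun b => P.valuation_le_one b

/-- The ring hom `B → O_v`. -/
def toPlaceRing (v : Place K F) (hB : ContainsB B v) : B →+* v.toValuationSubring :=
  (algebraMap B F).codRestrict v.toValuationSubring.toSubring hB

omit [IsDedekindDomain B] [Algebra K B] [IsScalarTower K B F] [IsFractionRing B F] in
@[simp]
theorem coe_toPlaceRing (v : Place K F) (hB : ContainsB B v) (b : B) :
    ((toPlaceRing v hB b : v.toValuationSubring) : F) = algebraMap B F b := rfl

/-- The centre of `v` on `B`: the prime `m_v ∩ B`. -/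
def centre (v : Place K F) (hB : ContainsB B v) : Ideal B :=
  (IsLocalRing.maximalIdeal v.toValuationSubring).comap (toPlaceRing v hB)

omit [IsDedekindDomain B] [Algebra K B] [IsScalarTower K B F] [IsFractionRing B F] in
theorem mem_centre_iff (v : Place K F) (hB : ContainsB B v) (b : B) :
    b ∈ centre v hB ↔ ¬ IsUnit (toPlaceRing v hB b) := by
  rw [centre, Ideal.mem_comap, IsLocalRing.mem_maximalIdeal, mem_nonunits_iff]

instance centre_isPrime (v : Place K F) (hB : ContainsB B v) : (centre v hB).IsPrime :=
  Ideal.comap_isPrime _ _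

theorem centre_ne_bot (v : Place K F) (hB : ContainsB B v) : centre v hB ≠ ⊥ := by
  intro hbot
  apply v.ne_top'
  -- every nonzero `b` is a unit of `O_v`, hence `F ⊆ O_v`
  have hunit : ∀ b : B, b ≠ 0 → IsUnit (toPlaceRing v hB b) := by
    intro b hb
    by_contra hnu
    have : b ∈ centre v hB := (mem_centre_iff v hB b).2 hnu
    rw [hbot, Ideal.mem_bot] at this
    exact hb this
  refine SetLike.ext fun x => ⟨fun _ => ValuationSubring.mem_top x, fun _ => ?_⟩
  obtain ⟨a, s, hs, rfl⟩ := IsFractionRing.div_surjective B x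
  have hs0 : s ≠ 0 := nonZeroDivisors.ne_zero hs
  obtain ⟨u, hu⟩ := hunit s hs0
  have hinv : (algebraMap B F s)⁻¹ = ((u⁻¹ : (v.toValuationSubring)ˣ) : v.toValuationSubring) := by
    have h1 : ((u : v.toValuationSubring) : F) = algebraMap B F s := by rw [hu]; rfl
    have h2 : ((u : v.toValuationSubring) : F) *
        (((u⁻¹ : (v.toValuationSubring)ˣ) : v.toValuationSubring) : F) = 1 := by
      rw [← Subring.coe_mul]
      simp
    rw [h1] at h2
    exact inv_eq_of_mul_eq_one_right h2
  rw [div_eq_mul_inv, hinv]
  exact v.toValuationSubring.mul_mem _ _ (hB a) (Subtype.mem _)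

/-- The height-one prime of `B` attached to a place containing `B`. -/
def primeOfPlace (v : Place K F) (hB : ContainsB B v) : HeightOneSpectrum B where
  asIdeal := centre v hB
  isPrime := centre_isPrime v hB
  ne_bot := centre_ne_bot v hB

@[simp]
theorem primeOfPlace_asIdeal (v : Place K F) (hB : ContainsB B v) :
    (primeOfPlace v hB).asIdeal = centre v hB := rfl

/-- `B_P ⊆ O_v` for `P = m_v ∩ B`. -/
theorem valuationSubringAtPrime_le (v : Place K F) (hB : ContainsB B v) :
    valuationSubringAtPrime F (primeOfPlace v hB) ≤ v.toValuationSubring := by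
  rintro x ⟨a, s, hs, rfl⟩
  have hsu : IsUnit (toPlaceRing v hB s) := by
    by_contra hnu
    exact hs ((mem_centre_iff v hB s).2 hnu)
  obtain ⟨u, hu⟩ := hsu
  have h1 : ((u : v.toValuationSubring) : F) = algebraMap B F s := by rw [hu]; rfl
  have h2 : ((u : v.toValuationSubring) : F) *
      (((u⁻¹ : (v.toValuationSubring)ˣ) : v.toValuationSubring) : F) = 1 := by
    rw [← Subring.coe_mul]
    simp
  rw [h1] at h2
  have hinv : (algebraMap B F s)⁻¹ = ((u⁻¹ : (v.toValuationSubring)ˣ) : v.toValuationSubring) :=
    inv_eq_of_mul_eq_one_right h2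
  rw [hinv]
  exact v.toValuationSubring.mul_mem _ _ (hB a) (Subtype.mem _)

/-- `placeOfPrime (primeOfPlace v) = v`. -/
theorem placeOfPrime_primeOfPlace (v : Place K F) (hB : ContainsB B v) :
    placeOfPrime (K := K) (F := F) (primeOfPlace v hB) = v := by
  apply Place.ext
  rw [placeOfPrime_toValuationSubring, ← valuationSubringAtPrime_eq_valuationSubring]
  exact ValuationSubring.eq_of_le_of_ne_top _ (valuationSubringAtPrime_le v hB) v.ne_top'

/-- `primeOfPlace (placeOfPrime P) = P`. -/
theorem primeOfPlace_placeOfPrime (P : HeightOneSpectrum B) :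
    primeOfPlace (placeOfPrime (K := K) (F := F) P) (containsB_placeOfPrime P) = P := by
  apply HeightOneSpectrum.ext
  ext b
  rw [primeOfPlace_asIdeal, mem_centre_iff, ← P.valuation_lt_one_iff_mem (K := F)]
  have hle : P.valuation F (algebraMap B F b) ≤ 1 := P.valuation_le_one b
  constructor
  · intro hnu
    refine lt_of_le_of_ne hle fun h1 => hnu ?_
    exact (isUnit_iff_valuation_eq_one (F := F) P
      (toPlaceRing (placeOfPrime (K := K) (F := F) P) (containsB_placeOfPrime P) b)).2 h1
  · intro hlt hu
    exact hlt.ne ((isUnit_iff_valuation_eq_one (F := F) P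
      (toPlaceRing (placeOfPrime (K := K) (F := F) P) (containsB_placeOfPrime P) b)).1 hu)

/-- The dictionary: places of `F/K` containing `B` ↔ height-one primes of `B`. -/
noncomputable def placeEquivPrime :
    {v : Place K F // ContainsB B v} ≃ HeightOneSpectrum B where
  toFun v := primeOfPlace v.1 v.2
  invFun P := ⟨placeOfPrime P, containsB_placeOfPrime P⟩
  left_inv v := Subtype.ext (placeOfPrime_primeOfPlace v.1 v.2)
  right_inv P := primeOfPlace_placeOfPrime P

/-- The order of `v` is the adic order at its centre. -/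
theorem ord_eq_of_containsB (v : Place K F) (hB : ContainsB B v) (f : F) :
    v.ord f = -(log ((primeOfPlace v hB).valuation F f)) := by
  conv_lhs => rw [← placeOfPrime_primeOfPlace v hB]
  exact placeOfPrime_ord _ f

end Fermat.Agent.S24_helper6
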